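/-
S36 top glue (helper36), pure algebra: a Kolchin-type fixed vector lemma.

Let `H` be a subgroup acting on a nonzero torsion-free module `M` over a Noetherian domain `R`
with `2 ≠ 0`, such that `(ρ τ - 1)² = 0` for every `τ ∈ H`.  Then `H` has a nonzero fixed vector.

Proof.  Put `N τ = ρ τ - 1`.  Expanding `N (g h)² = 0` and `N (g h⁻¹)² = 0` gives
`N h * N g * N h = 0` (here `2 ≠ 0` is used), hence `N g * N h = - N h * N g`.  So if `w` is
killed by `N g₁, …, N gₖ` then so is `N g w`; by induction finitely many `N gᵢ` have a common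
nonzero kernel vector.  Finally the `R`-span of all the `N τ` is finitely generated.
-/
import Mathlib

set_option autoImplicit false

namespace Fermat.Agent.S36.H36

section Algebra

variable {R M : Type*} [CommRing R] [IsDomain R] [AddCommGroup M] [Module R M]
  [Module.IsTorsionFree R M]

theorem end_eq_zero_of_two_smul (h2 : (2 : R) ≠ 0) (F : Module.End R M)
    (hF : (2 : R) • F = 0) : F = 0 := by
  apply LinearMap.ext
  intro v
  have h1 : (2 : R) • F v = 0 := by
    have := congrArg (fun f : Module.End R M => f v) hF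
    simpa using this
  rcases smul_eq_zero.mp h1 with h | h
  · exact absurd h h2
  · simpa using h

/-- The key identity: `B A B = 0`. -/
theorem mul_mul_eq_zero_of_sq_zero (h2 : (2 : R) ≠ 0) (A B : Module.End R M)
    (hA : A * A = 0) (hB : B * B = 0)
    (h1 : (A + B + A * B) * (A + B + A * B) = 0)
    (h1' : (A - B - A * B) * (A - B - A * B) = 0) : B * A * B = 0 := by
  have e1 : (A + B + A * B) * (A + B + A * B)
      = A * B + B * A + B * A * B + A * B * A + A * B * A * B
        + (A * A + (A * A) * B + B * B + A * (B * B)) := by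
    noncomm_ring
  have e2 : (A - B - A * B) * (A - B - A * B)
      = -(A * B) - B * A + B * A * B - A * B * A + A * B * A * B
        + (A * A - (A * A) * B + B * B + A * (B * B)) := by
    noncomm_ring
  rw [e1, hA, hB] at h1
  rw [e2, hA, hB] at h1'
  simp only [zero_mul, mul_zero, add_zero, sub_zero] at h1 h1'
  -- sum: `2 (1 + A) B A B = 0`
  have h3 : (2 : R) • ((1 + A) * (B * A * B)) = 0 := by
    have : (2 : R) • ((1 + A) * (B * A * B))
        = (A * B + B * A + B * A * B + A * B * A + A * B * A * B)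
          + (-(A * B) - B * A + B * A * B - A * B * A + A * B * A * B) := by
      rw [two_smul]
      noncomm_ring
    rw [this, h1, h1', add_zero]
  have h4 := end_eq_zero_of_two_smul h2 _ h3
  have h5 : B * A * B = (1 - A) * ((1 + A) * (B * A * B)) + (A * A) * (B * A * B) := by
    noncomm_ring
  rw [h5, h4, hA]
  simp

/-- Anticommutation. -/
theorem anticomm_of_sq_zero (h2 : (2 : R) ≠ 0) (A B : Module.End R M)
    (hA : A * A = 0) (hB : B * B = 0)
    (h1 : (A + B + A * B) * (A + B + A * B) = 0)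
    (h1' : (A - B - A * B) * (A - B - A * B) = 0)
    (h3 : (B + A + B * A) * (B + A + B * A) = 0)
    (h3' : (B - A - B * A) * (B - A - B * A) = 0) : A * B + B * A = 0 := by
  have hBAB := mul_mul_eq_zero_of_sq_zero h2 A B hA hB h1 h1'
  have hABA := mul_mul_eq_zero_of_sq_zero h2 B A hB hA h3 h3'
  have e1 : (A + B + A * B) * (A + B + A * B)
      = A * B + B * A + B * A * B + A * B * A + A * (B * A * B)
        + (A * A + (A * A) * B + B * B + A * (B * B)) := by
    noncomm_ring
  rw [e1, hA, hB, hBAB, hABA] at h1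
  simpa using h1

end Algebra

section Group

variable {R M G : Type*} [CommRing R] [IsDomain R] [AddCommGroup M] [Module R M]
  [Module.IsTorsionFree R M] [Group G]

variable (ρ : G →* Module.End R M) (H : Subgroup G)

omit [IsDomain R] [Module.IsTorsionFree R M] in
theorem map_inv_of_sq_zero {h : G} (hh : (ρ h - 1) * (ρ h - 1) = 0) :
    ρ h⁻¹ = 1 - (ρ h - 1) := by
  have h1 : ρ h⁻¹ * ρ h = 1 := by rw [← map_mul, inv_mul_cancel, map_one]
  have h2 : ρ h * (1 - (ρ h - 1)) = 1 := by
    have : ρ h * (1 - (ρ h - 1)) = 1 - (ρ h - 1) * (ρ h - 1) := by noncomm_ring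
    rw [this, hh, sub_zero]
  calc ρ h⁻¹ = ρ h⁻¹ * (ρ h * (1 - (ρ h - 1))) := by rw [h2, mul_one]
    _ = (ρ h⁻¹ * ρ h) * (1 - (ρ h - 1)) := by rw [mul_assoc]
    _ = 1 - (ρ h - 1) := by rw [h1, one_mul]

theorem anticomm_of_unipotent (h2 : (2 : R) ≠ 0)
    (hH : ∀ τ ∈ H, (ρ τ - 1) * (ρ τ - 1) = 0) {g h : G} (hg : g ∈ H) (hh : h ∈ H) :
    (ρ g - 1) * (ρ h - 1) + (ρ h - 1) * (ρ g - 1) = 0 := by
  have key : ∀ g h : G, g ∈ H → h ∈ H →
      ((ρ g - 1) + (ρ h - 1) + (ρ g - 1) * (ρ h - 1))
          * ((ρ g - 1) + (ρ h - 1) + (ρ g - 1) * (ρ h - 1)) = 0 ∧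
      ((ρ g - 1) - (ρ h - 1) - (ρ g - 1) * (ρ h - 1))
          * ((ρ g - 1) - (ρ h - 1) - (ρ g - 1) * (ρ h - 1)) = 0 := by
    intro g h hg hh
    constructor
    · have e : (ρ g - 1) + (ρ h - 1) + (ρ g - 1) * (ρ h - 1) = ρ (g * h) - 1 := by
        rw [map_mul]
        noncomm_ring
      rw [e]
      exact hH _ (H.mul_mem hg hh)
    · have e : (ρ g - 1) - (ρ h - 1) - (ρ g - 1) * (ρ h - 1) = ρ (g * h⁻¹) - 1 := by
        rw [map_mul, map_inv_of_sq_zero ρ (hH h hh)]
        noncomm_ring
      rw [e]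
      exact hH _ (H.mul_mem hg (H.inv_mem hh))
  exact anticomm_of_sq_zero h2 _ _ (hH g hg) (hH h hh) (key g h hg hh).1 (key g h hg hh).2
    (key h g hh hg).1 (key h g hh hg).2

/-- Finitely many elements of `H` have a common nonzero fixed vector. -/
theorem exists_fixed_finset [Nontrivial M] (h2 : (2 : R) ≠ 0)
    (hH : ∀ τ ∈ H, (ρ τ - 1) * (ρ τ - 1) = 0) (s : Finset G) (hs : ∀ g ∈ s, g ∈ H) :
    ∃ w : M, w ≠ 0 ∧ ∀ g ∈ s, (ρ g - 1) w = 0 := by
  classical
  induction s using Finset.induction_on with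
  | empty =>
    obtain ⟨w, hw⟩ := exists_ne (0 : M)
    exact ⟨w, hw, fun g hg => absurd hg (Finset.notMem_empty g)⟩
  | insert a s _ ih =>
    obtain ⟨w, hw, hws⟩ := ih (fun g hg => hs g (Finset.mem_insert_of_mem hg))
    have ha : a ∈ H := hs a (Finset.mem_insert_self a s)
    by_cases hwa : (ρ a - 1) w = 0
    · refine ⟨w, hw, fun g hg => ?_⟩
      rcases Finset.mem_insert.mp hg with rfl | hg
      · exact hwa
      · exact hws g hg
    · refine ⟨(ρ a - 1) w, hwa, fun g hg => ?_⟩
      rcases Finset.mem_insert.mp hg with rfl | hg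
      · have := congrArg (fun f : Module.End R M => f w) (hH g ha)
        simpa using this
      · have hgH : g ∈ H := hs g (Finset.mem_insert_of_mem hg)
        have h1 := congrArg (fun f : Module.End R M => f w)
          (anticomm_of_unipotent ρ H h2 hH hgH ha)
        simp only [LinearMap.add_apply, Module.End.mul_apply, LinearMap.zero_apply] at h1
        rw [hws g hg, map_zero, add_zero] at h1
        exact h1

/-- **Kolchin-type lemma.**  A subgroup all of whose elements satisfy `(ρ τ - 1)² = 0` has a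
nonzero fixed vector. -/
theorem exists_fixed_of_sq_zero [IsNoetherianRing R] [Module.Finite R M] [Module.Free R M]
    [Nontrivial M] (h2 : (2 : R) ≠ 0)
    (hH : ∀ τ ∈ H, (ρ τ - 1) * (ρ τ - 1) = 0) :
    ∃ w : M, w ≠ 0 ∧ ∀ τ ∈ H, ρ τ w = w := by
  classical
  set T : Set (Module.End R M) := (fun τ : G => ρ τ - 1) '' (H : Set G) with hT
  have hfg : (Submodule.span R T).FG := IsNoetherian.noetherian _
  obtain ⟨t, htT, hspan⟩ := (Submodule.fg_span_iff_fg_span_finset_subset T).mp hfg
  -- choose group elements for the finitely many generators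
  have hch : ∀ F : (t : Set (Module.End R M)), ∃ g : G, g ∈ H ∧ ρ g - 1 = (F : Module.End R M) := by
    rintro ⟨F, hF⟩
    obtain ⟨g, hg, rfl⟩ := htT hF
    exact ⟨g, hg, rfl⟩
  choose γ hγH hγ using hch
  obtain ⟨w, hw, hws⟩ := exists_fixed_finset ρ H h2 hH
    (Finset.univ.image γ) (fun g hg => by
      obtain ⟨F, -, rfl⟩ := Finset.mem_image.mp hg
      exact hγH F)
  refine ⟨w, hw, fun τ hτ => ?_⟩
  -- the evaluation at `w` kills the span
  have hker : Submodule.span R (t : Set (Module.End R M))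
      ≤ LinearMap.ker (LinearMap.applyₗ (R := R) (M := M) (M₂ := M) w) := by
    rw [Submodule.span_le]
    intro F hF
    rw [SetLike.mem_coe, LinearMap.mem_ker, LinearMap.applyₗ_apply_apply]
    have := hws (γ ⟨F, hF⟩) (Finset.mem_image.mpr ⟨⟨F, hF⟩, Finset.mem_univ _, rfl⟩)
    rw [hγ ⟨F, hF⟩] at this
    exact this
  have hmem : ρ τ - 1 ∈ Submodule.span R T := Submodule.subset_span ⟨τ, hτ, rfl⟩
  rw [hspan] at hmem
  have := hker hmem
  rw [LinearMap.mem_ker, LinearMap.applyₗ_apply_apply] at this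
  have h3 : ρ τ w - w = 0 := by simpa using this
  exact sub_eq_zero.mp h3

end Group

end Fermat.Agent.S36.H36
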