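/-
S36 mid layer (helper36): the adic eigenmodule WITHOUT INVARIANTS.

Extension of helper529's `S30.H529.exists_adic_eigenmodule` / `exists_adic_galois_eigenmodule`
and of helper991's `S35.H991.exists_adic_eigenmodule_new` by one more transfer principle:

  if a subset `H` of the group fixes only a BOUNDED part of the `p`-power torsion
  (`∀ x ∈ J[p^∞], (∀ τ ∈ H, τ • x = x) → p ^ k • x = 0`), then `H` has no nonzero fixed vector
  in the adic eigenmodule.

The module is the same one (`tateEigen`, the eigen-part of the Tate module of `O ⊗ J`); the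
transfer uses the flatness bridge `S35.H991.exists_lTensor_subtype_eq`.
-/
import Fermat.Agent.S35.H991.NewSub

set_option autoImplicit false
set_option linter.unusedSectionVars false

namespace Fermat.Agent.S36.H36

open IsLocalRing TensorProduct Fermat.Agent.S30.H529 Fermat.Agent.S35.H991

noncomputable section

section Bounded

variable (O : Type*) [CommRing O] [Module.Flat ℤ O]
variable {G : Type*} [Group G] {J : Type*} [AddCommGroup J] [DistribMulAction G J]

/-- **Bounded invariants, tensor form.**  If the `H`-fixed part of `J[m]` is killed by `c`, then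
so is the `H`-fixed part of `(O ⊗ J)[m]`. -/
theorem smul_eq_zero_of_fixed (m : ℕ) (hfin : {x : J | m • x = 0}.Finite) (H : Set G) (c : ℕ)
    (hc : ∀ x : J, m • x = 0 → (∀ τ ∈ H, τ • x = x) → c • x = 0)
    (y : O ⊗[ℤ] J) (hy : (m : ℤ) • y = 0)
    (hfix : ∀ τ ∈ H, (actLin J τ).baseChange O y = y) : (c : ℤ) • y = 0 := by
  set K : Submodule ℤ J := LinearMap.ker ((c : ℤ) • (LinearMap.id : J →ₗ[ℤ] J)) with hK
  have hmemK : ∀ x : J, x ∈ K ↔ c • x = 0 := by
    intro x
    rw [hK, LinearMap.mem_ker, LinearMap.smul_apply, LinearMap.id_apply, natCast_zsmul]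
  obtain ⟨s, hs⟩ := exists_lTensor_subtype_eq O m hfin (C := H) (J' := fun _ => J)
    (fun τ => actLin J (τ : G) - LinearMap.id) K
    (fun x hx hfx => (hmemK x).mpr (hc x hx (fun τ hτ => by
      have := hfx ⟨τ, hτ⟩
      simpa [sub_eq_zero] using this)))
    y hy (fun τ => by
      have h1 := hfix (τ : G) τ.2
      have h2 : (actLin J (τ : G) - LinearMap.id).lTensor O y
          = (actLin J (τ : G)).baseChange O y - y := by
        rw [LinearMap.lTensor_sub, LinearMap.lTensor_id, LinearMap.sub_apply,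
          LinearMap.id_apply]
        rfl
      rw [h2, h1, sub_self])
  have h0 : (c : ℤ) • (LinearMap.id : K →ₗ[ℤ] K) = 0 := by
    apply LinearMap.ext
    intro x
    apply Subtype.ext
    have := (hmemK (x : J)).mp x.2
    simpa using this
  have h1 : (c : ℤ) • s = 0 := by
    have : (c : ℤ) • s = ((c : ℤ) • (LinearMap.id : K →ₗ[ℤ] K)).lTensor O s := by
      rw [LinearMap.lTensor_smul, LinearMap.lTensor_id, LinearMap.smul_apply,
        LinearMap.id_apply]
    rw [this, h0, LinearMap.lTensor_zero, LinearMap.zero_apply]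
  rw [← hs, ← map_zsmul, h1, map_zero]

end Bounded

section Main

variable (p : ℕ)
variable (O : Type) [CommRing O] [IsDomain O] [IsDiscreteValuationRing O]
  [IsAdicComplete (maximalIdeal O) O] [CharZero O]
variable {G : Type*} [Group G]
variable (J : Type) [AddCommGroup J] [DistribMulAction G J]
variable {ι : Type*} (T : ι → J →+ J) (a : ι → O)

/-- **Abstract Tate module, with the no-invariants transfer.**  Same module and same clauses as
`S30.H529.exists_adic_eigenmodule`, plus: a subset `H ⊆ G` whose fixed points in `J[p^∞]` are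
killed by `p ^ k` has no nonzero fixed vector in the module. -/
theorem exists_adic_eigenmodule_inv (hpO : (p : O) ∈ maximalIdeal O) (hp0 : p ≠ 0)
    (hT : ∀ (i : ι) (γ : G) (x : J), T i (γ • x) = γ • T i x)
    (hfin : {x : J | p • x = 0}.Finite)
    (v : ℕ → O ⊗[ℤ] J) (hv0 : (p : O) • v 0 = 0) (hv : ∀ n, (p : O) • v (n + 1) = v n)
    (hne : v ≠ 0) (heig : ∀ i n, tensorOp O T i (v n) = a i • v n) :
    ∃ (M : Type) (_ : AddCommGroup M) (_ : Module O M) (_ : Module.Free O M)
      (_ : Module.Finite O M) (ρ : G →* Module.End O M),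
      Nontrivial M ∧
      (∀ (n : ℕ) (γ : G), (∀ x : J, p ^ n • x = 0 → γ • x = x) →
        ∀ m : M, ρ γ m - m ∈ (maximalIdeal O ^ n • ⊤ : Submodule O M)) ∧
      (∀ γ : G, (∀ x : J, (∃ n : ℕ, p ^ n • x = 0) → γ • x = x) → ρ γ = 1) ∧
      (∀ (γ : G) (i : ι) (c : ℤ),
        (∀ x : J, (∃ n : ℕ, p ^ n • x = 0) → γ • γ • x - T i (γ • x) + c • x = 0) →
        ρ γ * ρ γ - a i • ρ γ + (c : O) • (1 : Module.End O M) = 0) ∧
      (∀ (H : Set G) (k : ℕ),
        (∀ x : J, (∃ n : ℕ, p ^ n • x = 0) → (∀ τ ∈ H, τ • x = x) → p ^ k • x = 0) →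
        ∀ m : M, (∀ τ ∈ H, ρ τ m = m) → m = 0) := by
  have hϖ0 : (p : O) ≠ 0 := by exact_mod_cast hp0
  have hX : ∃ Y : Submodule O (O ⊗[ℤ] J), Y.FG ∧ ∀ x : O ⊗[ℤ] J, (p : O) • x = 0 → x ∈ Y := by
    obtain ⟨Y, hY, hYX⟩ := exists_fg_of_finite_torsion O (J := J) (p : ℤ) (by
      have : {y : J | (p : ℤ) • y = 0} = {x : J | p • x = 0} := by
        ext y
        simp
      rw [this]
      exact hfin)
    refine ⟨Y, hY, fun x hx => hYX x ?_⟩
    have := natCast_pow_smul p O J 1 x
    simp only [pow_one] at this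
    rw [← this]
    exact hx
  have hρ := tensorRep_tensorOp O T hT
  have hfree := tateEigen_free (t := tensorOp O T) (a := a) hpO hϖ0 hX
  have hfinite := tateEigen_finite (t := tensorOp O T) (a := a) hpO hϖ0 hX
  -- transfer of relations
  have htrans : ∀ (A : J →ₗ[ℤ] J) (n : ℕ), (∀ y : J, p ^ n • y = 0 → A y = 0) →
      ∀ x : O ⊗[ℤ] J, (p : O) ^ n • x = 0 → A.baseChange O x = 0 := by
    intro A n hA x hx
    apply baseChange_eq_zero_of_torsion O ((p ^ n : ℕ) : ℤ) A
    · intro y hy
      apply hA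
      rwa [natCast_zsmul] at hy
    · rw [← natCast_pow_smul]
      exact hx
  refine ⟨tateEigen (p : O) (tensorOp O T) a, inferInstance, inferInstance, hfree, hfinite,
    tateRep (tensorRep O J) hρ, ?_, ?_, ?_, ?_, ?_⟩
  · refine ⟨⟨⟨v, hv0, hv, heig⟩, 0, ?_⟩⟩
    intro h
    exact hne (congrArg Subtype.val h)
  · intro n γ hγ m
    apply tateRep_sub_mem (tensorRep O J) hρ hpO n γ
    intro x hx
    have h1 := htrans (actLin J γ - LinearMap.id) n (fun y hy => by
      simp [hγ y hy]) x hx
    rw [LinearMap.baseChange_sub, LinearMap.baseChange_id, LinearMap.sub_apply,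
      LinearMap.id_apply, sub_eq_zero] at h1
    exact h1
  · intro γ hγ
    apply tateRep_eq_one
    rintro x ⟨n, hx⟩
    have h1 := htrans (actLin J γ - LinearMap.id) n (fun y hy => by
      simp [hγ y ⟨n, hy⟩]) x hx
    rw [LinearMap.baseChange_sub, LinearMap.baseChange_id, LinearMap.sub_apply,
      LinearMap.id_apply, sub_eq_zero] at h1
    exact h1
  · intro γ i c hγ
    apply tateRep_quadratic
    rintro x ⟨n, hx⟩
    have h1 := htrans (actLin J γ ∘ₗ actLin J γ - (T i).toIntLinearMap ∘ₗ actLin J γ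
      + c • LinearMap.id) n (fun y hy => by
        have := hγ y ⟨n, hy⟩
        simpa using this) x hx
    rw [LinearMap.baseChange_add, LinearMap.baseChange_sub, LinearMap.baseChange_comp,
      LinearMap.baseChange_comp, LinearMap.baseChange_smul, LinearMap.baseChange_id] at h1
    simp only [LinearMap.add_apply, LinearMap.sub_apply, LinearMap.comp_apply,
      LinearMap.smul_apply, LinearMap.id_apply] at h1
    rw [Int.cast_smul_eq_zsmul]
    exact h1
  · -- the no-invariants transfer
    intro H k hH m hm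
    have hcomp : ∀ n, ((p ^ k : ℕ) : ℤ) • (m : ℕ → O ⊗[ℤ] J) n = 0 := by
      intro n
      refine smul_eq_zero_of_fixed O (p ^ (n + 1)) (finite_torsion_pow J p hfin (n + 1)) H (p ^ k)
        (fun x hx hfx => hH x ⟨n + 1, hx⟩ hfx) _ ?_ ?_
      · rw [← natCast_pow_smul]
        exact tate_pow_succ_smul m.2 n
      · intro τ hτ
        have h1 := congrArg (fun w : tateEigen (p : O) (tensorOp O T) a => (w : ℕ → O ⊗[ℤ] J) n)
          (hm τ hτ)
        exact h1
    apply Subtype.ext
    funext n
    have h1 := tate_pow_smul m.2 k n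
    rw [← h1, natCast_pow_smul]
    exact hcomp (n + k)

end Main

end

end Fermat.Agent.S36.H36
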