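/-
S36 engine, layer (i) (helper36): the engine on `JZero (N * q)` with helper155's degeneracy maps.

`QNewInertiaStatement` : for `q ‖ N`, a prime `p ≠ q` and a place `P ∣ q` there is `k` such that
every `x ∈ J₀(N q)[p^∞]` which is `q`-new (`S35.H155.IsQNew`: `pushA x = 0`, `pushB x = 0`) and
fixed by the inertia group `I_P` is killed by `p ^ k`.

`newPartInertiaStatement_of_qNew : QNewInertiaStatement → NewPartInertiaStatement`
(the Hecke clauses are helper155's / helper801's `pushA_heckeOperatorBar`, `pushB_heckeOperatorBar`;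
the level `M` is transported to `(M / q) * q`).
-/
import Fermat.Agent.S36.H36.Mid
import Fermat.Agent.S35.H155.B2Geom

set_option autoImplicit false
set_option linter.style.haveILetI false

noncomputable section

namespace Fermat.Agent.S36.H36

open ModularCurve AlgebraicCurve Fermat.Agent.S30.H990 Fermat.Agent.S35.H155

/-- Transport of `J₀` along an equality of levels, compatible with Galois and Hecke. -/
theorem exists_levelCast (A B : ℕ) (h : A = B) [NeZero A] [NeZero B] :
    ∃ e : JZero A ≃+ JZero B,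
      (∀ (γ : AlgebraicClosure ℚ ≃ₐ[ℚ] AlgebraicClosure ℚ) (x : JZero A), e (γ • x) = γ • e x) ∧
      (∀ (ℓ : Nat.Primes) (x : JZero A),
        e (heckeOperatorBar A ℓ x) = heckeOperatorBar B ℓ (e x)) := by
  subst h
  exact ⟨AddEquiv.refl _, fun _ _ => rfl, fun _ _ => rfl⟩

/-- **The engine on `JZero (N * q)`** (`q ‖ N`, so `q² ‖ N q`). -/
def QNewInertiaStatement : Prop :=
  ∀ (N q p : ℕ) [NeZero N] [NeZero q], q.Prime → N.factorization q = 1 → p.Prime → p ≠ q →
    ∀ P : ValuationSubring (AlgebraicClosure ℚ), P.LiesOverPrime q →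
      ∃ k : ℕ, ∀ x : JZero (N * q), (∃ n : ℕ, p ^ n • x = 0) → IsQNew N q x →
        (∀ τ ∈ P.inertiaSubgroupIn ℚ, τ • x = x) → p ^ k • x = 0

theorem factorization_div_self {M q : ℕ} (hq : q.Prime) (h : M.factorization q = 2) :
    (M / q).factorization q = 1 := by
  have hqM : q ∣ M := dvd_of_factorization_eq_two h
  rw [Nat.factorization_div hqM, Finsupp.tsub_apply, h, hq.factorization_self]

/-- **Layer (i).** -/
theorem newPartInertiaStatement_of_qNew (h : QNewInertiaStatement) :
    NewPartInertiaStatement := by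
  intro M q _ _ hq hfac
  have hqM : q ∣ M := dvd_of_factorization_eq_two hfac
  have hMq : M = M / q * q := (Nat.div_mul_cancel hqM).symm
  haveI : NeZero q := ⟨hq.ne_zero⟩
  haveI : NeZero (M / q * q) := ⟨by rw [← hMq]; exact NeZero.ne M⟩
  obtain ⟨e, heG, heT⟩ := exists_levelCast M (M / q * q) hMq
  have hℓq : ∀ ℓ : Nat.Primes, ¬ (ℓ : ℕ) ∣ M → (ℓ : ℕ) ≠ q := by
    intro ℓ hℓ hℓq
    exact hℓ (hℓq ▸ hqM)
  refine ⟨(pushA (M / q) q).comp e.toAddMonoidHom, (pushB (M / q) q).comp e.toAddMonoidHom,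
    ?_, ?_, ?_⟩
  · intro ℓ hℓ x
    show pushA (M / q) q (e (heckeOperatorBar M ℓ x)) = heckeOperatorBar (M / q) ℓ
      (pushA (M / q) q (e x))
    rw [heT, pushA_heckeOperatorBar (M / q) q hq ℓ (hℓq ℓ hℓ)]
  · intro ℓ hℓ x
    show pushB (M / q) q (e (heckeOperatorBar M ℓ x)) = heckeOperatorBar (M / q) ℓ
      (pushB (M / q) q (e x))
    rw [heT, pushB_heckeOperatorBar (M / q) q hq ℓ (hℓq ℓ hℓ)]
  · intro p hp hpq A hA
    obtain ⟨k, hk⟩ := h (M / q) q p hq (factorization_div_self hq hfac) hp hpq A hA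
    refine ⟨k, fun x hx hnew hfix => ?_⟩
    have h1 : p ^ k • e x = 0 := by
      refine hk (e x) ?_ ?_ ?_
      · obtain ⟨n, hn⟩ := hx
        exact ⟨n, by rw [← map_nsmul, hn, map_zero]⟩
      · have := hnew 1
        rw [one_smul] at this
        exact ⟨this.1, this.2⟩
      · intro τ hτ
        rw [← heG, hfix τ hτ]
    rw [← map_nsmul] at h1
    exact e.injective (by rw [h1, map_zero])

end Fermat.Agent.S36.H36
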