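/-
S36 engine, layer (ii) (helper36): the Kummer dictionary.

`KummerQNewInertiaStatement` : the engine in the modular function field `F̄_{N q} = ℚ̄(X₀(N q))`,
`q ‖ N`: there is `k` (depending on `N, q, p, P` only) such that for every `n` and every
`f ∈ F̄_{N q}ˣ` with

* `p ^ n ∣ div f`,
* `N_α f` and `N_β f` are `p ^ n`-th powers in `F̄_N` (the class of `f` is `q`-new),
* `τ f / f` is a `p ^ n`-th power for every `τ` in the inertia group `I_P` (the class is fixed),

the function `f ^ (p ^ k)` is a `p ^ n`-th power.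

`qNewInertia_of_kummer : KummerQNewInertiaStatement → QNewInertiaStatement`.

Dictionary: `x = [D]`, `p ^ n • x = 0`, `p ^ n D = div f`.  The two abstract lemmas
`exists_ord_eq_of_smul_eq` (fixed class ⇒ `div (τ f) = div (y ^ m f)`) and
`nsmul_mk_eq_zero_of_pow_eq` (`f ^ c = y ^ m` ⇒ `c • x = 0`) are in Prelude language for any
`K`, `F`; the `q`-new part is helper909's computation (`S35.H909.QNewOfKummer`).
-/
import Fermat.Agent.S36.H36.Deg
import Fermat.Agent.S35.H909.QNewOfKummer

set_option autoImplicit false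
set_option linter.style.haveILetI false

noncomputable section

namespace Fermat.Agent.S36.H36

open AlgebraicCurve ModularCurve Fermat.Agent.A2

section Abstract

variable {K F : Type*} [Field K] [Field F] [Algebra K F]

/-- A fixed class: `g • [D] = [D]`, `m D = div f`  ⟹  `div (τ f) = div (y ^ m · f)` for some
`y ≠ 0`. -/
theorem exists_ord_eq_of_smul_eq (g : SemilinearAut K F) (m : ℕ)
    (D : Divisor.degZero (K := K) (F := F)) {f : F}
    (hfD : ∀ v : Place K F, v.ord f = (m : ℤ) * (D : Divisor K F) v)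
    (hfix : g • Pic0.mk D = Pic0.mk D) :
    ∃ y : F, y ≠ 0 ∧ ∀ w : Place K F,
      w.ord (SemilinearAut.toRingAut g f) = (m : ℤ) * w.ord y + w.ord f := by
  rw [SemilinearAut.pic0_smul_mk] at hfix
  have h0 : Pic0.mk (SemilinearAut.degZeroSMulHom g D - D) = 0 := by
    have : Pic0.mk (SemilinearAut.degZeroSMulHom g D - D)
        = Pic0.mk (SemilinearAut.degZeroSMulHom g D) - Pic0.mk D := rfl
    rw [this, hfix, sub_self]
  have hprin := (QuotientAddGroup.eq_zero_iff (SemilinearAut.degZeroSMulHom g D - D)).1 h0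
  rw [AddSubgroup.mem_addSubgroupOf] at hprin
  obtain ⟨y, hy, hyD⟩ := hprin
  refine ⟨y, hy, fun w => ?_⟩
  have h1 : ((SemilinearAut.degZeroSMulHom g D - D : Divisor.degZero (K := K) (F := F)) :
      Divisor K F) w = (D : Divisor K F) (g⁻¹ • w) - (D : Divisor K F) w := by
    simp only [AddSubgroupClass.coe_sub, SemilinearAut.coe_degZeroSMulHom, Finsupp.sub_apply,
      SemilinearAut.divisor_smul_apply]
  have h2 := hyD w
  rw [h1] at h2
  rw [Fermat.Agent.A2.H129.ord_smul_eq, hfD, hfD, ← h2]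
  ring

/-- `m D = div f`, `f ^ c = y ^ m`  ⟹  `c • [D] = 0`. -/
theorem nsmul_mk_eq_zero_of_pow_eq (m c : ℕ) (hm : m ≠ 0)
    (D : Divisor.degZero (K := K) (F := F)) {f : F}
    (hfD : ∀ v : Place K F, v.ord f = (m : ℤ) * (D : Divisor K F) v)
    {y : F} (hy : y ≠ 0) (h : f ^ c = y ^ m) : c • Pic0.mk D = 0 := by
  have h0 : c • Pic0.mk D = Pic0.mk (c • D) := rfl
  rw [h0]
  refine (QuotientAddGroup.eq_zero_iff (c • D)).2 ?_
  rw [AddSubgroup.mem_addSubgroupOf]
  refine ⟨y, hy, fun w => ?_⟩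
  have h1 : ((c • D : Divisor.degZero (K := K) (F := F)) : Divisor K F) w
      = (c : ℤ) * (D : Divisor K F) w := by
    simp only [AddSubgroup.coe_nsmul, Finsupp.smul_apply, nsmul_eq_mul]
  have h2 : (m : ℤ) * ((c : ℤ) * (D : Divisor K F) w) = (m : ℤ) * w.ord y := by
    have h3 := congrArg w.ord h
    rw [Fermat.Agent.A2.H129.ord_pow, Fermat.Agent.A2.H129.ord_pow, hfD] at h3
    linear_combination h3
  have hm' : (m : ℤ) ≠ 0 := by exact_mod_cast hm
  rw [h1]
  exact mul_left_cancel₀ hm' h2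

end Abstract

/-- **The engine, Kummer form.** -/
def KummerQNewInertiaStatement : Prop :=
  ∀ (N q p : ℕ) [NeZero N] [NeZero q], q.Prime → N.factorization q = 1 → p.Prime → p ≠ q →
    ∀ P : ValuationSubring Qb, P.LiesOverPrime q →
      ∃ k : ℕ, ∀ (n : ℕ) (f : modularFunctionFieldBar (N * q)), f ≠ 0 →
        (∀ v : Place Qb (modularFunctionFieldBar (N * q)), ((p ^ n : ℕ) : ℤ) ∣ v.ord f) →
        (∃ h : modularFunctionFieldBar N, h ≠ 0 ∧
          Fermat.Agent.S29.H395.normAlong (heckeAlphaBar Qb N q) f = h ^ (p ^ n)) →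
        (∃ h : modularFunctionFieldBar N, h ≠ 0 ∧
          Fermat.Agent.S29.H395.normAlong (heckeBetaBar Qb N q) f = h ^ (p ^ n)) →
        (∀ τ ∈ P.inertiaSubgroupIn ℚ, ∃ y : modularFunctionFieldBar (N * q), y ≠ 0 ∧
          arithmeticRingAut (modularFunctionFieldFull (N * q)) τ f = y ^ (p ^ n) * f) →
        ∃ y : modularFunctionFieldBar (N * q), y ≠ 0 ∧ f ^ (p ^ k) = y ^ (p ^ n)

/-- **Layer (ii).**  The Kummer form of the engine implies the engine on `J₀(N q)`. -/
theorem qNewInertia_of_kummer (hK : KummerQNewInertiaStatement) : QNewInertiaStatement := by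
  intro N q p _ _ hq hfac hp hpq P hP
  obtain ⟨k, hk⟩ := hK N q p hq hfac hp hpq P hP
  refine ⟨k, fun x hx hnew hfix => ?_⟩
  obtain ⟨n, hn⟩ := hx
  haveI : NeZero (N * q) := ⟨Nat.mul_ne_zero (NeZero.ne N) (NeZero.ne q)⟩
  set m : ℕ := p ^ n with hmdef
  have hm : 0 < m := pow_pos hp.pos n
  obtain ⟨D, rfl⟩ := Pic0.mk_surjective x
  rw [Fermat.Agent.S35.H155.isQNew_mk_iff] at hnew
  obtain ⟨⟨a, ha, haD⟩, ⟨b, hb, hbD⟩⟩ := hnew
  -- the Kummer generator
  have hprin : ((m • D : Divisor.degZero (K := Qb) (F := modularFunctionFieldBar (N * q))) :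
      Divisor Qb (modularFunctionFieldBar (N * q))) ∈
      Divisor.principal (K := Qb) (F := modularFunctionFieldBar (N * q)) := by
    have h0 : Pic0.mk (m • D) = 0 := hn
    have := (QuotientAddGroup.eq_zero_iff (m • D)).1 h0
    simpa [AddSubgroup.mem_addSubgroupOf] using this
  obtain ⟨f, hf, hfD⟩ := hprin
  have hfD' : ∀ v : Place Qb (modularFunctionFieldBar (N * q)),
      v.ord f = (m : ℤ) * (D : Divisor Qb (modularFunctionFieldBar (N * q))) v := by
    intro v
    rw [← hfD v]
    simp [Finsupp.smul_apply]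
  have hfD'' : ∀ w : Place Qb (modularFunctionFieldBar (N * q)),
      ((m : ℤ) • (D : Divisor Qb (modularFunctionFieldBar (N * q)))) w = w.ord f := by
    intro w
    rw [Finsupp.smul_apply, smul_eq_mul, hfD' w]
  -- the norm formula for `α` and `β`
  haveI hPD : HasPrincipalDivisors Qb (modularFunctionFieldBar (N * q)) :=
    Fermat.Agent.Lib.RR.H864.hasPrincipalDivisors_modularFunctionFieldBar (N * q)
  have hF := Fermat.Agent.S29.H812.exists_coord_modular N
  have hα := Fermat.Agent.Lib.FF398.heckeAlphaBarIntegral N q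
  have hβ := Fermat.Agent.Lib.FF398.heckeBetaBarIntegral N q
  have hfinα := Fermat.Agent.S29.H812.finiteAlong_heckeAlphaBar N q
  have hfinβ := Fermat.Agent.S29.H812.finiteAlong_heckeBetaBar N q
  have hNα := Fermat.Agent.S29.H812.normFormulaAlong hF (heckeAlphaBar Qb N q) hfinα
  have hNβ := Fermat.Agent.S29.H812.normFormulaAlong hF (heckeBetaBar Qb N q) hfinβ
  have hordα : ∀ v : Place Qb (modularFunctionFieldBar N),
      v.ord (Fermat.Agent.S29.H395.normAlong (heckeAlphaBar Qb N q) f) = (m : ℤ) * v.ord a := by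
    intro v
    rw [← Fermat.Agent.S29.H395.pushforwardAlong_apply_eq_ord (heckeAlphaBar Qb N q) hα hfinα hNα
      hf hfD'' v, map_zsmul, Finsupp.smul_apply, smul_eq_mul, haD v]
  have hordβ : ∀ v : Place Qb (modularFunctionFieldBar N),
      v.ord (Fermat.Agent.S29.H395.normAlong (heckeBetaBar Qb N q) f) = (m : ℤ) * v.ord b := by
    intro v
    rw [← Fermat.Agent.S29.H395.pushforwardAlong_apply_eq_ord (heckeBetaBar Qb N q) hβ hfinβ hNβ
      hf hfD'' v, map_zsmul, Finsupp.smul_apply, smul_eq_mul, hbD v]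
  have hα' := Fermat.Agent.S35.H909.exists_pow_eq_of_ord N m hm
    (Fermat.Agent.S29.H395.normAlong_ne_zero _ hfinα hf) ha hordα
  have hβ' := Fermat.Agent.S35.H909.exists_pow_eq_of_ord N m hm
    (Fermat.Agent.S29.H395.normAlong_ne_zero _ hfinβ hf) hb hordβ
  -- the fixed condition
  have hfixK : ∀ τ ∈ P.inertiaSubgroupIn ℚ, ∃ y : modularFunctionFieldBar (N * q), y ≠ 0 ∧
      arithmeticRingAut (modularFunctionFieldFull (N * q)) τ f = y ^ m * f := by
    intro τ hτ
    have h1 : arithmeticGalois (L := Qb) (modularFunctionFieldFull (N * q)) τ • Pic0.mk D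
        = Pic0.mk D := hfix τ hτ
    obtain ⟨y, hy, hyw⟩ := exists_ord_eq_of_smul_eq
      (arithmeticGalois (L := Qb) (modularFunctionFieldFull (N * q)) τ) m D hfD' h1
    rw [toRingAut_arithmeticGalois] at hyw
    set τf := arithmeticRingAut (modularFunctionFieldFull (N * q)) τ f with hτf
    have hτf0 : τf ≠ 0 := by
      rw [hτf]
      exact (map_ne_zero_iff _
        (arithmeticRingAut (modularFunctionFieldFull (N * q)) τ).injective).2 hf
    have hyf0 : y ^ m * f ≠ 0 := mul_ne_zero (pow_ne_zero _ hy) hf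
    -- `τ f = (y ^ m * f) * (unit of order zero everywhere)`
    have hy' : ∀ w : Place Qb (modularFunctionFieldBar (N * q)),
        w.ord τf = w.ord (y ^ m * f) := by
      intro w
      rw [hyw w, w.ord_mul (pow_ne_zero _ hy) hf, Fermat.Agent.A2.H129.ord_pow]
    have h2 := Fermat.Agent.S35.H909.exists_pow_eq_of_ord (N * q) m hm
      (y := τf * (y ^ m * f)⁻¹ * y ^ m) (a := y)
      (mul_ne_zero (mul_ne_zero hτf0 (inv_ne_zero hyf0)) (pow_ne_zero _ hy)) hy (fun w => by
        rw [w.ord_mul (mul_ne_zero hτf0 (inv_ne_zero hyf0)) (pow_ne_zero _ hy),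
          Fermat.Agent.A2.H129.ord_div w hτf0 hyf0, hy' w, sub_self, zero_add,
          Fermat.Agent.A2.H129.ord_pow])
    obtain ⟨z, hz, hzy⟩ := h2
    refine ⟨z, hz, ?_⟩
    rw [← hzy]
    field_simp
  obtain ⟨y, hy, hyf⟩ := hk n f hf (fun v => ⟨_, hfD' v⟩) hα' hβ' hfixK
  exact nsmul_mk_eq_zero_of_pow_eq m (p ^ k) hm.ne' D hfD' hy hyf

end Fermat.Agent.S36.H36

namespace Fermat.Agent.S36.H36

/-- **Layers (i) + (ii).**  The Kummer form of the engine implies the engine consumed by the mid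
layer. -/
theorem newPartInertiaStatement_of_kummer (hK : KummerQNewInertiaStatement) :
    NewPartInertiaStatement :=
  newPartInertiaStatement_of_qNew (qNewInertia_of_kummer hK)

end Fermat.Agent.S36.H36
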