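/-
S36 engine, layers (i)+(ii) POINTWISE and at NEAT levels (helper36).

* `KummerQNewInertiaAt N q p P`   : the Kummer form of the engine at ONE level `(N, q, p, P)`
                                     (the body of `KummerQNewInertiaStatement`);
* `qNewInertiaAt_of_kummerAt`     : `KummerQNewInertiaAt N q p P → H442.QNewInertiaAt N q p P`;
* `KummerQNewInertiaNeatStatement`: the Kummer form at the neat levels `N r q` of helper442
                                     (`r ≡ 11 mod 12` prime, `r ∤ N q p`, `r > N q p`);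
* `newPartInertiaStatement_of_kummerNeat` :
      `KummerQNewInertiaNeatStatement → NewPartInertiaStatement`
  (helper442's `qNewInertia_of_neat` + layer (i)).

So the geometric engine is only needed at neat levels.
-/
import Fermat.Agent.S36.H36.Kummer
import Fermat.Agent.S36.H442.NeatStmt

set_option autoImplicit false
set_option linter.style.haveILetI false

noncomputable section

namespace Fermat.Agent.S36.H36

open AlgebraicCurve ModularCurve Fermat.Agent.A2

/-- **The engine, Kummer form, at one level.** -/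
def KummerQNewInertiaAt (N q p : ℕ) [NeZero N] [NeZero q]
    (P : ValuationSubring Qb) : Prop :=
  ∃ k : ℕ, ∀ (n : ℕ) (f : modularFunctionFieldBar (N * q)), f ≠ 0 →
    (∀ v : Place Qb (modularFunctionFieldBar (N * q)), ((p ^ n : ℕ) : ℤ) ∣ v.ord f) →
    (∃ h : modularFunctionFieldBar N, h ≠ 0 ∧
      Fermat.Agent.S29.H395.normAlong (heckeAlphaBar Qb N q) f = h ^ (p ^ n)) →
    (∃ h : modularFunctionFieldBar N, h ≠ 0 ∧
      Fermat.Agent.S29.H395.normAlong (heckeBetaBar Qb N q) f = h ^ (p ^ n)) →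
    (∀ τ ∈ P.inertiaSubgroupIn ℚ, ∃ y : modularFunctionFieldBar (N * q), y ≠ 0 ∧
      arithmeticRingAut (modularFunctionFieldFull (N * q)) τ f = y ^ (p ^ n) * f) →
    ∃ y : modularFunctionFieldBar (N * q), y ≠ 0 ∧ f ^ (p ^ k) = y ^ (p ^ n)

theorem kummerQNewInertiaStatement_iff :
    KummerQNewInertiaStatement ↔
      ∀ (N q p : ℕ) [NeZero N] [NeZero q], q.Prime → N.factorization q = 1 → p.Prime → p ≠ q →
        ∀ P : ValuationSubring Qb, P.LiesOverPrime q → KummerQNewInertiaAt N q p P :=
  Iff.rfl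

/-- **Layer (ii), pointwise.** -/
theorem qNewInertiaAt_of_kummerAt (N q p : ℕ) [NeZero N] [NeZero q] (hp : p.Prime)
    (P : ValuationSubring Qb) (hK : KummerQNewInertiaAt N q p P) :
    Fermat.Agent.S36.H442.QNewInertiaAt N q p P := by
  obtain ⟨k, hk⟩ := hK
  refine ⟨k, fun x hx hnew hfix => ?_⟩
  obtain ⟨n, hn⟩ := hx
  haveI : NeZero (N * q) := ⟨Nat.mul_ne_zero (NeZero.ne N) (NeZero.ne q)⟩
  set m : ℕ := p ^ n with hmdef
  have hm : 0 < m := pow_pos hp.pos n
  obtain ⟨D, rfl⟩ := Pic0.mk_surjective x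
  rw [Fermat.Agent.S35.H155.isQNew_mk_iff] at hnew
  obtain ⟨⟨a, ha, haD⟩, ⟨b, hb, hbD⟩⟩ := hnew
  -- the Kummer generator
  have hprin : ((m • D : Divisor.degZero (K := Qb) (F := modularFunctionFieldBar (N * q))) :
      Divisor Qb (modularFunctionFieldBar (N * q))) ∈
      Divisor.principal (K := Qb) (F := modularFunctionFieldBar (N * q)) := by
    have h0 : Pic0.mk (m • D) = 0 := hn
    have := (QuotientAddGroup.eq_zero_iff (m • D)).1 h0
    simpa [AddSubgroup.mem_addSubgroupOf] using this
  obtain ⟨f, hf, hfD⟩ := hprin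
  have hfD' : ∀ v : Place Qb (modularFunctionFieldBar (N * q)),
      v.ord f = (m : ℤ) * (D : Divisor Qb (modularFunctionFieldBar (N * q))) v := by
    intro v
    rw [← hfD v]
    simp [Finsupp.smul_apply]
  have hfD'' : ∀ w : Place Qb (modularFunctionFieldBar (N * q)),
      ((m : ℤ) • (D : Divisor Qb (modularFunctionFieldBar (N * q)))) w = w.ord f := by
    intro w
    rw [Finsupp.smul_apply, smul_eq_mul, hfD' w]
  -- the norm formula for `α` and `β`
  haveI hPD : HasPrincipalDivisors Qb (modularFunctionFieldBar (N * q)) :=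
    Fermat.Agent.Lib.RR.H864.hasPrincipalDivisors_modularFunctionFieldBar (N * q)
  have hF := Fermat.Agent.S29.H812.exists_coord_modular N
  have hα := Fermat.Agent.Lib.FF398.heckeAlphaBarIntegral N q
  have hβ := Fermat.Agent.Lib.FF398.heckeBetaBarIntegral N q
  have hfinα := Fermat.Agent.S29.H812.finiteAlong_heckeAlphaBar N q
  have hfinβ := Fermat.Agent.S29.H812.finiteAlong_heckeBetaBar N q
  have hNα := Fermat.Agent.S29.H812.normFormulaAlong hF (heckeAlphaBar Qb N q) hfinα
  have hNβ := Fermat.Agent.S29.H812.normFormulaAlong hF (heckeBetaBar Qb N q) hfinβ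
  have hordα : ∀ v : Place Qb (modularFunctionFieldBar N),
      v.ord (Fermat.Agent.S29.H395.normAlong (heckeAlphaBar Qb N q) f) = (m : ℤ) * v.ord a := by
    intro v
    rw [← Fermat.Agent.S29.H395.pushforwardAlong_apply_eq_ord (heckeAlphaBar Qb N q) hα hfinα hNα
      hf hfD'' v, map_zsmul, Finsupp.smul_apply, smul_eq_mul, haD v]
  have hordβ : ∀ v : Place Qb (modularFunctionFieldBar N),
      v.ord (Fermat.Agent.S29.H395.normAlong (heckeBetaBar Qb N q) f) = (m : ℤ) * v.ord b := by
    intro v
    rw [← Fermat.Agent.S29.H395.pushforwardAlong_apply_eq_ord (heckeBetaBar Qb N q) hβ hfinβ hNβ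
      hf hfD'' v, map_zsmul, Finsupp.smul_apply, smul_eq_mul, hbD v]
  have hα' := Fermat.Agent.S35.H909.exists_pow_eq_of_ord N m hm
    (Fermat.Agent.S29.H395.normAlong_ne_zero _ hfinα hf) ha hordα
  have hβ' := Fermat.Agent.S35.H909.exists_pow_eq_of_ord N m hm
    (Fermat.Agent.S29.H395.normAlong_ne_zero _ hfinβ hf) hb hordβ
  -- the fixed condition
  have hfixK : ∀ τ ∈ P.inertiaSubgroupIn ℚ, ∃ y : modularFunctionFieldBar (N * q), y ≠ 0 ∧
      arithmeticRingAut (modularFunctionFieldFull (N * q)) τ f = y ^ m * f := by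
    intro τ hτ
    have h1 : arithmeticGalois (L := Qb) (modularFunctionFieldFull (N * q)) τ • Pic0.mk D
        = Pic0.mk D := hfix τ hτ
    obtain ⟨y, hy, hyw⟩ := exists_ord_eq_of_smul_eq
      (arithmeticGalois (L := Qb) (modularFunctionFieldFull (N * q)) τ) m D hfD' h1
    rw [toRingAut_arithmeticGalois] at hyw
    set τf := arithmeticRingAut (modularFunctionFieldFull (N * q)) τ f with hτf
    have hτf0 : τf ≠ 0 := by
      rw [hτf]
      exact (map_ne_zero_iff _
        (arithmeticRingAut (modularFunctionFieldFull (N * q)) τ).injective).2 hf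
    have hyf0 : y ^ m * f ≠ 0 := mul_ne_zero (pow_ne_zero _ hy) hf
    -- `τ f = (y ^ m * f) * (unit of order zero everywhere)`
    have hy' : ∀ w : Place Qb (modularFunctionFieldBar (N * q)),
        w.ord τf = w.ord (y ^ m * f) := by
      intro w
      rw [hyw w, w.ord_mul (pow_ne_zero _ hy) hf, Fermat.Agent.A2.H129.ord_pow]
    have h2 := Fermat.Agent.S35.H909.exists_pow_eq_of_ord (N * q) m hm
      (y := τf * (y ^ m * f)⁻¹ * y ^ m) (a := y)
      (mul_ne_zero (mul_ne_zero hτf0 (inv_ne_zero hyf0)) (pow_ne_zero _ hy)) hy (fun w => by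
        rw [w.ord_mul (mul_ne_zero hτf0 (inv_ne_zero hyf0)) (pow_ne_zero _ hy),
          Fermat.Agent.A2.H129.ord_div w hτf0 hyf0, hy' w, sub_self, zero_add,
          Fermat.Agent.A2.H129.ord_pow])
    obtain ⟨z, hz, hzy⟩ := h2
    refine ⟨z, hz, ?_⟩
    rw [← hzy]
    field_simp
  obtain ⟨y, hy, hyf⟩ := hk n f hf (fun v => ⟨_, hfD' v⟩) hα' hβ' hfixK
  exact nsmul_mk_eq_zero_of_pow_eq m (p ^ k) hm.ne' D hfD' hy hyf


/-- **The engine, Kummer form, at the neat levels** `N r q` (`q ‖ N`, `r ≡ 11 mod 12` a prime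
not dividing `N q p` and larger than `N q p`). -/
def KummerQNewInertiaNeatStatement : Prop :=
  ∀ (N q r p : ℕ) [NeZero N] [NeZero q] [NeZero r], q.Prime → N.factorization q = 1 →
    r.Prime → r % 12 = 11 → ¬ r ∣ N * q * p → N * q * p < r → p.Prime → p ≠ q →
    ∀ P : ValuationSubring Qb, P.LiesOverPrime q →
      (N * r).factorization q = 1 → KummerQNewInertiaAt (N * r) q p P

/-- The engine on `J₀` at neat levels from its Kummer form at neat levels. -/
theorem qNewInertiaNeat_of_kummerNeat (h : KummerQNewInertiaNeatStatement) :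
    Fermat.Agent.S36.H442.QNewInertiaNeatStatement := by
  intro N q r p _ _ _ hq hfac hr hmod hndvd hB hp hpq P hP hfac'
  haveI : NeZero (N * r) := ⟨Nat.mul_ne_zero (NeZero.ne N) (NeZero.ne r)⟩
  exact qNewInertiaAt_of_kummerAt (N * r) q p hp P
    (h N q r p hq hfac hr hmod hndvd hB hp hpq P hP hfac')

/-- **The engine consumed by the mid layer, from the Kummer form at NEAT levels.** -/
theorem newPartInertiaStatement_of_kummerNeat (h : KummerQNewInertiaNeatStatement) :
    NewPartInertiaStatement :=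
  newPartInertiaStatement_of_qNew
    (Fermat.Agent.S36.H442.qNewInertia_of_neat (qNewInertiaNeat_of_kummerNeat h))

end Fermat.Agent.S36.H36
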